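import Fermat.Agent.S19.I.Units
import Fermat.Agent.GAL.KLC.LLeqL

/-!
# S19 / I-2 : coordinates in a rational orthonormal basis
-/

set_option autoImplicit false
set_option linter.unusedSectionVars false

noncomputable section

namespace Fermat.Agent.S19.I

open AlgebraicCurve Polynomial Fermat.Agent.S24.FF Fermat.Agent.S27 Fermat.Agent.GAL.KL
  Fermat.Agent.GAL.KLC Fermat.Agent.GAL.FF Fermat.Agent.S19.R Fermat.Agent.S19.W Fermat.Agent.S19.H

variable {F : Type} {Γ₀ : Type*} [Field F] [Algebra Qb F] [IsFF1 Qb F]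
  [LinearOrderedCommGroupWithZero Γ₀]
  {A : ValuationSubring Qb} {v : Valuation F Γ₀} {gal : GQ →* SemilinearAut Qb F} {s : F}

variable {Ω : Type} {act : GQ → Ω → Ω}

theorem Chart.transcendental (hs : Chart Qb v s) : Transcendental Qb s := by
  rw [transcendental_iff]
  exact fun p hp => hs.gauss.inj p hp

/-- every element of `B_s` lies in some `𝓛_a(s)` (`KLC.LL_eq_L`, finiteness of the poles). -/
theorem exists_mem_LL (hs : Chart Qb v s) {z : F} (hz : IsInt Qb s z) : ∃ a : ℕ, z ∈ LL Qb s a := by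
  classical
  have htr := Chart.transcendental hs
  have hz' := (isInt_iff_forall_ord htr z).1 hz
  set T : Finset (Place Qb F) := (finite_support_ord (K := Qb) z).toFinset with hT
  refine ⟨∑ P ∈ T, (-P.ord z).toNat, ?_⟩
  rw [LL_eq_L htr, mem_riemannRochSpace_iff]
  intro P
  right
  rw [Finsupp.smul_apply, poleDiv_apply, nsmul_eq_mul]
  rcases le_or_gt 0 (P.ord z) with h | h
  · have : (0 : ℤ) ≤ ((∑ P ∈ T, (-P.ord z).toNat : ℕ) : ℤ) * max 0 (-P.ord s) :=
      mul_nonneg (Int.natCast_nonneg _) (le_max_left _ _)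
    omega
  · have hs0 : P.ord s < 0 := by
      by_contra hcon
      exact absurd (hz' P (not_lt.1 hcon)) (not_le.2 h)
    have hPT : P ∈ T := by
      rw [hT, Set.Finite.mem_toFinset]
      exact ne_of_lt h
    have h1 : (-P.ord z).toNat ≤ ∑ P ∈ T, (-P.ord z).toNat :=
      Finset.single_le_sum (f := fun P : Place Qb F => (-P.ord z).toNat) (fun _ _ => Nat.zero_le _) hPT
    have h2 : (1 : ℤ) ≤ max 0 (-P.ord s) := le_max_of_le_right (by omega)
    have h3 : ((-P.ord z).toNat : ℤ) ≤ ((∑ P ∈ T, (-P.ord z).toNat : ℕ) : ℤ) := by exact_mod_cast h1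
    have h4 : ((∑ P ∈ T, (-P.ord z).toNat : ℕ) : ℤ) * 1
        ≤ ((∑ P ∈ T, (-P.ord z).toNat : ℕ) : ℤ) * max 0 (-P.ord s) :=
      mul_le_mul_of_nonneg_left h2 (Int.natCast_nonneg _)
    have h5 : ((-P.ord z).toNat : ℤ) = -P.ord z := Int.toNat_of_nonneg (by omega)
    omega

theorem gal_smul_smul (hS : Setting A v gal) (σ : GQ) (c : Qb) (f : F) :
    gal σ • (c • f) = (σ c) • (gal σ • f) := by
  rw [Algebra.smul_def, Algebra.smul_def, smul_mul', SemilinearAut.smul_algebraMap, hS.base]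

/-- an equivariant family of functions of `𝓛_a(s) ∩ O_v`, evaluated at a FIXED place of the chart. -/
theorem val_family_mem_SG (hB : Base A v gal s) (a : ℕ) (z : Ω → F) (hz : ∀ ω, z ω ∈ LL Qb s a)
    (hzv : ∀ ω, v (z ω) ≤ 1) (hzeq : ∀ σ ω, gal σ • z ω = z (act σ ω))
    (y : Place Qb F) (hy0 : 0 ≤ y.ord s) (hy : vK v (val y s) ≤ 1) :
    (fun ω => val y (z ω)) ∈ SG A act := by
  obtain ⟨r, w, hli, hw, hexp⟩ := hB.hRB a
  have htr := Chart.transcendental hB.hs
  choose α hαA hα using fun ω => hexp (z ω) (hz ω) (hzv ω)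
  have heq : ∀ σ ω k, α (act σ ω) k = σ (α ω k) := by
    intro σ ω
    have h1 : ∑ k, α (act σ ω) k • w k = ∑ k, (σ (α ω k)) • w k := by
      rw [← hα (act σ ω), ← hzeq σ ω]
      conv_lhs => rw [hα ω]
      rw [Finset.smul_sum]
      refine Finset.sum_congr rfl fun k _ => ?_
      rw [gal_smul_smul hB.hS, (hw k).2.2 σ]
    have h2 : ∑ k, (α (act σ ω) k - σ (α ω k)) • w k = 0 := by
      simp only [sub_smul, Finset.sum_sub_distrib, h1, sub_self]
    intro k
    have := Fintype.linearIndependent_iff.1 hli _ h2 k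
    exact sub_eq_zero.1 this
  have hwy : ∀ k, 0 ≤ y.ord (w k) := fun k => (isInt_iff_forall_ord htr _).1 (hw k).1 y hy0
  have hval : (fun ω => val y (z ω)) = ∑ k, fun ω => val y (w k) * α ω k := by
    funext ω
    rw [Finset.sum_apply, hα ω, val_sum y _ _ (fun k _ => by
      rw [Algebra.smul_def]; exact ord_mul_nonneg y (ord_algebraMap_nonneg y _) (hwy k))]
    refine Finset.sum_congr rfl fun k _ => ?_
    rw [val_smul y _ (hwy k), mul_comm]
  rw [hval]
  refine sum_mem_SG _ _ fun k _ => ?_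
  have hk : val y (w k) ∈ A :=
    (hB.hS.vA _).1 (c1_of_chart hB.hs (w k) (hw k).1 (hw k).2.1 y hy0 hy)
  exact smul_mem_SG hk (mem_SG_of_isEqFun (f := fun ω => α ω k)
    ⟨fun ω => hαA ω k, fun σ ω => heq σ ω k⟩)

/-- a FIXED function of `B_s ∩ O_v`, evaluated at an equivariant family of places of the chart. -/
theorem val_places_mem_SG (hB : Base A v gal s) {z : F} (hz : IsInt Qb s z) (hzv : v z ≤ 1)
    (X : Ω → Place Qb F) (hX : ∀ σ ω, X (act σ ω) = gal σ • X ω)
    (hX0 : ∀ ω, 0 ≤ (X ω).ord s) (hX1 : ∀ ω, vK v (val (X ω) s) ≤ 1) :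
    (fun ω => val (X ω) z) ∈ SG A act := by
  obtain ⟨a, ha⟩ := exists_mem_LL hB.hs hz
  obtain ⟨r, w, hli, hw, hexp⟩ := hB.hRB a
  have htr := Chart.transcendental hB.hs
  obtain ⟨β, hβA, hβ⟩ := hexp z ha hzv
  have hwy : ∀ ω k, 0 ≤ (X ω).ord (w k) := fun ω k =>
    (isInt_iff_forall_ord htr _).1 (hw k).1 (X ω) (hX0 ω)
  have hval : (fun ω => val (X ω) z) = ∑ k, fun ω => β k * val (X ω) (w k) := by
    funext ω
    rw [Finset.sum_apply]
    conv_lhs => rw [hβ]
    rw [val_sum (X ω) _ _ (fun k _ => by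
      rw [Algebra.smul_def]; exact ord_mul_nonneg (X ω) (ord_algebraMap_nonneg (X ω) _) (hwy ω k))]
    refine Finset.sum_congr rfl fun k _ => ?_
    rw [val_smul (X ω) _ (hwy ω k)]
  rw [hval]
  refine sum_mem_SG _ _ fun k _ => ?_
  refine smul_mem_SG (hβA k) (mem_SG_of_isEqFun (f := fun ω => val (X ω) (w k)) ⟨fun ω => ?_, fun σ ω => ?_⟩)
  · exact (hB.hS.vA _).1 (c1_of_chart hB.hs (w k) (hw k).1 (hw k).2.1 (X ω) (hX0 ω) (hX1 ω))
  · have h1 := val_semi (gal σ) (X ω) (w k)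
    rw [(hw k).2.2 σ, hB.hS.base] at h1
    show val (X (act σ ω)) (w k) = σ (val (X ω) (w k))
    rw [hX σ ω]
    exact h1

end Fermat.Agent.S19.I
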