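import Fermat.Agent.S19.Defs
import Fermat.Agent.S19.R.Defs
import Fermat.Agent.S19.W.Defs

/-!
# S19 / I : integrality of the Weil pairing (abstract form).  Definitions (no sorry).
-/

set_option autoImplicit false

noncomputable section

namespace Fermat.Agent.S19.I

open AlgebraicCurve Polynomial Fermat.Agent.S24.FF Fermat.Agent.S27 Fermat.Agent.GAL.KL
  Fermat.Agent.GAL.KLC Fermat.Agent.S19.R Fermat.Agent.S19.W

variable {F : Type} {Γ₀ : Type*} [Field F] [Algebra Qb F]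
  [LinearOrderedCommGroupWithZero Γ₀]

/-- the arithmetic setting: `G_ℚ` acts semilinearly on `F`, `v` extends the valuation of `A`. -/
structure Setting (A : ValuationSubring Qb) (v : Valuation F Γ₀) (gal : GQ →* SemilinearAut Qb F) :
    Prop where
  base : ∀ (σ : GQ) (a : Qb), SemilinearAut.baseAut (gal σ) a = σ a
  vA : ∀ a : Qb, v (algebraMap Qb F a) ≤ 1 ↔ a ∈ A
  vval : ∀ z : F, z ≠ 0 → ∃ a : Qb, v z = v (algebraMap Qb F a)

/-- (RB) rational orthonormal bases of the spaces `𝓛_a(s) = LL ℚ̄ s a`. -/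
def RB (A : ValuationSubring Qb) (v : Valuation F Γ₀) (gal : GQ →* SemilinearAut Qb F) (s : F) : Prop :=
  ∀ a : ℕ, ∃ (r : ℕ) (w : Fin r → F), LinearIndependent Qb w ∧
    (∀ k, IsInt Qb s (w k) ∧ v (w k) ≤ 1 ∧ ∀ σ : GQ, gal σ • w k = w k) ∧
    ∀ z ∈ LL Qb s a, v z ≤ 1 → ∃ α : Fin r → Qb, (∀ k, α k ∈ A) ∧ z = ∑ k, α k • w k

/-- the divisor `∑_j (x_j - ∞)`. -/
def tupDiv {g₀ : ℕ} (x : Fin g₀ → Place Qb F) (oo : Place Qb F) : Divisor Qb F :=
  sumPts x - Finsupp.single oo (g₀ : ℤ)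

/-- the standing hypotheses on the rational chart `s`. -/
structure Base (A : ValuationSubring Qb) (v : Valuation F Γ₀) (gal : GQ →* SemilinearAut Qb F) (s : F) :
    Prop where
  hS : Setting A v gal
  hs : Chart Qb v s
  hsr : ∀ σ : GQ, gal σ • s = s
  hRB : RB A v gal s

/-- `f : Ω → ℚ̄` lies in `𝒮_G` and all its values are units of `A`. -/
def IsUnitSG (A : ValuationSubring Qb) {Ω : Type} (act : GQ → Ω → Ω) (f : Ω → Qb) : Prop :=
  f ∈ SG A act ∧ ∀ ω, f ω ≠ 0 ∧ (f ω)⁻¹ ∈ A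

end Fermat.Agent.S19.I
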