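import Fermat.Agent.S19.I.Coord

/-!
# S19 / I-5 : the second factor: `ω ↦ w(X_ω)` for an equivariant family of bad places
-/

set_option autoImplicit false
set_option linter.unusedSectionVars false

noncomputable section

namespace Fermat.Agent.S19.I

open AlgebraicCurve Polynomial Fermat.Agent.S24.FF Fermat.Agent.S27 Fermat.Agent.GAL.KL
  Fermat.Agent.GAL.KLC Fermat.Agent.GAL.FF Fermat.Agent.S19.R Fermat.Agent.S19.W Fermat.Agent.S19.H

variable {F : Type} {Γ₀ : Type*} [Field F] [Algebra Qb F] [IsFF1 Qb F]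
  [LinearOrderedCommGroupWithZero Γ₀]
  {A : ValuationSubring Qb} {v : Valuation F Γ₀} {gal : GQ →* SemilinearAut Qb F} {s : F}

variable {Ω : Type} {act : GQ → Ω → Ω}

theorem val_bad_isUnitSG [Finite Ω] (hB : Base A v gal s) {w : F} (hwv : v w = 1)
    (hwG : ∀ y : Place Qb F, y.ord w ≠ 0 → Good v s y)
    (X : Ω → Place Qb F) (hX : ∀ σ ω, X (act σ ω) = gal σ • X ω) (hXB : ∀ ω, Bad v s (X ω)) :
    IsUnitSG A act (fun ω => val (X ω) w) := by
  classical
  have htr := Chart.transcendental hB.hs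
  have hw0 : w ≠ 0 := by
    rintro rfl
    rw [map_zero] at hwv
    exact zero_ne_one hwv
  have hunit : ∀ ω, (X ω).ord w = 0 ∧ vK v (val (X ω) w) = 1 := fun ω =>
    unit_at_bad hB.hs hwv hwG (hXB ω)
  refine ⟨?_, fun ω => ⟨((vK_eq_one_iff hB.hS _).1 (hunit ω).2).1,
    ((vK_eq_one_iff hB.hS _).1 (hunit ω).2).2.2⟩⟩
  set S : Finset (Place Qb F) := (finite_support_ord (K := Qb) w).toFinset with hS
  have hSmem : ∀ y, y ∈ S ↔ y.ord w ≠ 0 := fun y => by
    rw [hS, Set.Finite.mem_toFinset]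
    rfl
  have hSG : ∀ y ∈ S, Good v s y := fun y hy => hwG y ((hSmem y).1 hy)
  let fac : Place Qb F → F := fun y => (s - algebraMap Qb F (val y s)) ^ (-y.ord w).toNat
  set b : F := ∏ y ∈ S, fac y with hb
  have hlin0 : ∀ c : Qb, s - algebraMap Qb F c ≠ 0 := by
    intro c h0
    apply htr
    rw [sub_eq_zero.1 h0]
    exact isAlgebraic_algebraMap c
  have hfac0 : ∀ y, fac y ≠ 0 := fun y => pow_ne_zero _ (hlin0 _)
  have hsInt : IsInt Qb s s := by
    have h : IsInt Qb s (aeval s (Polynomial.X : Qb[X])) := IsInt.aeval Polynomial.X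
    rwa [aeval_X] at h
  have hfacInt : ∀ y, IsInt Qb s (fac y) := fun y => (hsInt.sub (IsInt.algebraMap _)).pow _
  have hbInt : IsInt Qb s b :=
    Finset.prod_induction fac (fun z => IsInt Qb s z) (fun _ _ h h' => h.mul h') IsInt.one
      fun y _ => hfacInt y
  have hfacv : ∀ y ∈ S, v (fac y) ≤ 1 := by
    intro y hy
    show v ((s - algebraMap Qb F (val y s)) ^ (-y.ord w).toNat) ≤ 1
    rw [map_pow]
    refine pow_le_one₀ zero_le ?_
    refine (Valuation.map_sub _ _ _).trans (max_le hB.hs.gauss.v_t.le ?_)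
    exact (hSG y hy).2.1.le
  have hbv : v b ≤ 1 := by
    rw [hb, map_prod]
    exact Finset.prod_le_one' hfacv
  have hfacord : ∀ (P : Place Qb F), 0 ≤ P.ord s → ∀ y, 0 ≤ P.ord (fac y) := fun P hP y =>
    ord_pow_nonneg P (ord_sub_nonneg P hP (ord_algebraMap_nonneg P _)) _
  have hbord : ∀ (P : Place Qb F), 0 ≤ P.ord s → 0 ≤ P.ord b := fun P hP =>
    ord_prod_nonneg P S fac fun y _ => hfacord P hP y
  have hzInt : IsInt Qb s (w * b) := by
    rw [isInt_iff_forall_ord htr]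
    intro P hP
    by_cases hPw : 0 ≤ P.ord w
    · exact ord_mul_nonneg P hPw (hbord P hP)
    · rw [not_le] at hPw
      have hPS : P ∈ S := (hSmem P).2 hPw.ne
      have h1 : b = fac P * ∏ y ∈ S.erase P, fac y := (Finset.mul_prod_erase S fac hPS).symm
      have h2 : 0 ≤ P.ord (∏ y ∈ S.erase P, fac y) :=
        ord_prod_nonneg P _ fac fun y _ => hfacord P hP y
      have h3 : (∏ y ∈ S.erase P, fac y) ≠ 0 := Finset.prod_ne_zero_iff.2 fun y _ => hfac0 y
      have h4 : 0 < P.ord (s - algebraMap Qb F (val P s)) :=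
        (val_spec' P hP).resolve_left (hlin0 _)
      have h5 : P.ord (fac P) = ((-P.ord w).toNat : ℤ) * P.ord (s - algebraMap Qb F (val P s)) :=
        ord_pow P _ _
      have h6 : ((-P.ord w).toNat : ℤ) = -P.ord w := Int.toNat_of_nonneg (by omega)
      rw [h1, P.ord_mul hw0 (mul_ne_zero (hfac0 P) h3), P.ord_mul (hfac0 P) h3, h5, h6]
      nlinarith
  have hzv : v (w * b) ≤ 1 := by
    rw [map_mul, hwv, one_mul]
    exact hbv
  have hX0 : ∀ ω, 0 ≤ (X ω).ord s := fun ω => (hXB ω).1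
  have hX1 : ∀ ω, vK v (val (X ω) s) ≤ 1 := fun ω => Bad.le_one (hXB ω)
  have h1 := val_places_mem_SG hB hzInt hzv X hX hX0 hX1
  have h2 := val_places_mem_SG hB hbInt hbv X hX hX0 hX1
  have hbval : ∀ ω, vK v (val (X ω) b) = 1 := by
    intro ω
    rw [hb, val_prod (X ω) S fac fun y _ => hfacord (X ω) (hX0 ω) y, map_prod]
    refine Finset.prod_eq_one fun y hy => ?_
    show vK v (val (X ω) ((s - algebraMap Qb F (val y s)) ^ (-y.ord w).toNat)) = 1
    rw [val_pow (X ω) (ord_sub_nonneg (X ω) (hX0 ω) (ord_algebraMap_nonneg (X ω) _)),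
      val_sub (X ω) (hX0 ω) (ord_algebraMap_nonneg (X ω) _), val_algebraMap, map_pow,
      Valuation.map_sub_swap, good_sub_bad (hSG y hy) (hXB ω), one_pow]
  have hbU : IsUnitSG A act (fun ω => val (X ω) b) :=
    ⟨h2, fun ω => ⟨((vK_eq_one_iff hB.hS _).1 (hbval ω)).1,
      ((vK_eq_one_iff hB.hS _).1 (hbval ω)).2.2⟩⟩
  have heq : (fun ω => val (X ω) w) = fun ω => val (X ω) (w * b) * (val (X ω) b)⁻¹ := by
    funext ω
    rw [val_mul (X ω) (hunit ω).1.ge (hbord (X ω) (hX0 ω)), mul_assoc,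
      mul_inv_cancel₀ (hbU.2 ω).1, mul_one]
  rw [heq]
  exact mul_mem_SG h1 hbU.inv.1

end Fermat.Agent.S19.I
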