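import Fermat.Agent.S19.I.First
import Fermat.Agent.S19.I.Second

/-!
# S19 / I : integrality of the Weil pairing (abstract form).  THE EXPORT of the block (proof: SPEC.md §I).
-/

set_option autoImplicit false
set_option linter.unusedSectionVars false

noncomputable section

namespace Fermat.Agent.S19.I

open AlgebraicCurve Polynomial Fermat.Agent.S24.FF Fermat.Agent.S27 Fermat.Agent.GAL.KL
  Fermat.Agent.GAL.KLC Fermat.Agent.GAL.FF Fermat.Agent.S19.R Fermat.Agent.S19.W Fermat.Agent.S19.H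

variable {F : Type} {Γ₀ : Type*} [Field F] [Algebra Qb F] [IsFF1 Qb F]
  [LinearOrderedCommGroupWithZero Γ₀]
  {A : ValuationSubring Qb} {v : Valuation F Γ₀} {gal : GQ →* SemilinearAut Qb F} {s : F}

theorem export_not_good_bad {y : Place Qb F} (h : Good v s y) (h' : Bad v s y) : False := by
  rcases h'.2 with h1 | h1
  · exact absurd h.2.1 h1.ne
  · exact absurd h.2.2 h1.ne

/-- **integrality of the Weil pairing.**  `Ω` a finite `G`-set of tuples of places `(x_1..x_g₀; a)`, all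
`x_j` and `∞` in the bad locus of the rational chart `s`, `a` in the good locus, `n ∑ (x_j - ∞) = div u_ω`;
`E` a divisor supported in the good locus, `n E = div w`.  Then `ω ↦ u_ω(E) / w(D_ω)` lies in `𝒮_G(Ω)`. -/
theorem integrality
    (hS : Setting A v gal) (hs : Chart Qb v s) (hsr : ∀ σ : GQ, gal σ • s = s)
    (hRB : RB A v gal s) {n : ℕ} (hn : 0 < n)
    {Ω : Type} [Finite Ω] (act : GQ → Ω → Ω) {g₀ : ℕ} (x : Ω → Fin g₀ → Place Qb F)
    (hx : ∀ σ ω j, x (act σ ω) j = gal σ • x ω j) (oo : Place Qb F) (hoo : ∀ σ : GQ, gal σ • oo = oo)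
    (a : Ω → Place Qb F) (ha : ∀ σ ω, a (act σ ω) = gal σ • a ω)
    (hxB : ∀ ω j, Bad v s (x ω j)) (hooB : Bad v s oo) (haG : ∀ ω, Good v s (a ω))
    (u : Ω → F) (hu : ∀ ω, u ω ≠ 0)
    (hdiv : ∀ ω (y : Place Qb F), y.ord (u ω) = n * tupDiv (x ω) oo y)
    (E : Divisor Qb F) (hE : ∀ y, E y ≠ 0 → Good v s y) (w : F) (hw : w ≠ 0)
    (hwdiv : ∀ y : Place Qb F, y.ord w = n * E y) :
    (fun ω => evD (u ω) E / evD w (tupDiv (x ω) oo)) ∈ SG A act := by
  classical
  have hB : Base A v gal s := ⟨hS, hs, hsr, hRB⟩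
  have hn0 : (n : ℤ) ≠ 0 := by exact_mod_cast hn.ne'
  -- `deg E = 0`
  have hdegE : Divisor.degree E = 0 := by
    have h1 : n • E = divOf Qb w := by
      ext y
      rw [Finsupp.smul_apply, divOf_apply, hwdiv, nsmul_eq_mul]
    have h2 := congrArg Divisor.degree h1
    rw [degree_divOf, map_nsmul, nsmul_eq_mul] at h2
    exact (mul_eq_zero.1 h2).resolve_left hn0
  -- the supports are disjoint
  have hdisj : ∀ ω (y : Place Qb F), tupDiv (x ω) oo y ≠ 0 → E y = 0 := by
    intro ω y h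
    by_contra hEy
    have hbad : Bad v s y := by
      rcases tupDiv_apply_ne_zero h with rfl | ⟨j, rfl⟩
      · exact hooB
      · exact hxB ω j
    exact export_not_good_bad (hE y hEy) hbad
  -- first factor
  obtain ⟨ut, hutc, hutv, huteq⟩ :=
    exists_normalised hB x hx oo hoo a ha hxB hooB haG u hu hdiv
  have hutdiv : ∀ ω (y : Place Qb F), y.ord (ut ω) = n * tupDiv (x ω) oo y := by
    intro ω y
    obtain ⟨c, hc, hcu⟩ := hutc ω
    have hcF : algebraMap Qb F c ≠ 0 := by simpa using hc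
    rw [hcu, y.ord_mul hcF (hu ω), ord_algebraMap, zero_add, hdiv]
  have huE : ∀ ω, UnitOn (u ω) E := fun ω => ⟨hu ω, fun y hy => by
    rw [hdiv]
    by_contra h
    exact hy (hdisj ω y (right_ne_zero_of_mul h))⟩
  have h1eq : ∀ ω, evD (u ω) E = ∏ y ∈ E.support, val y (ut ω) ^ E y := by
    intro ω
    obtain ⟨c, hc, hcu⟩ := hutc ω
    have h2 : evD (ut ω) E = evD (u ω) E := by
      rw [hcu, evD_mul (unitOn_algebraMap hc E) (huE ω), evD_algebraMap hc, hdegE, zpow_zero,
        one_mul]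
    rw [← h2]
    rfl
  have hF1 : IsUnitSG A act (fun ω => evD (u ω) E) := by
    simp only [h1eq]
    refine IsUnitSG.prod _ fun y hy => IsUnitSG.zpow ?_ _
    exact val_good_isUnitSG hB x oo hoo hxB hooB ut hutv huteq hutdiv y
      (hE y (Finsupp.mem_support_iff.1 hy))
  -- second factor
  obtain ⟨c, hc⟩ := hS.vval w hw
  have hc0 : c ≠ 0 := by
    rintro rfl
    rw [map_zero, map_zero] at hc
    exact hw ((Valuation.zero_iff v).1 hc)
  have hci : c⁻¹ ≠ 0 := inv_ne_zero hc0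
  have hcF : algebraMap Qb F c⁻¹ ≠ 0 := by simpa using hc0
  have hvc : v (algebraMap Qb F c) ≠ 0 := (Valuation.ne_zero_iff _).2 (by simpa using hc0)
  set w1 : F := algebraMap Qb F c⁻¹ * w with hw1
  have hw10 : w1 ≠ 0 := mul_ne_zero hcF hw
  have hw1v : v w1 = 1 := by
    rw [hw1, map_mul, hc, map_inv₀, map_inv₀, inv_mul_cancel₀ hvc]
  have hw1ord : ∀ y : Place Qb F, y.ord w1 = n * E y := by
    intro y
    rw [hw1, y.ord_mul hcF hw, ord_algebraMap, zero_add, hwdiv]
  have hw1G : ∀ y : Place Qb F, y.ord w1 ≠ 0 → Good v s y := by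
    intro y hy
    rw [hw1ord] at hy
    exact hE y (right_ne_zero_of_mul hy)
  have hwD : ∀ ω, UnitOn w (tupDiv (x ω) oo) := fun ω => ⟨hw, fun y hy => by
    rw [hwdiv, hdisj ω y hy, mul_zero]⟩
  have hw1x : ∀ ω j, (x ω j).ord w1 = 0 := fun ω j => (unit_at_bad hs hw1v hw1G (hxB ω j)).1
  have hw1oo : oo.ord w1 = 0 := (unit_at_bad hs hw1v hw1G hooB).1
  have h2eq : ∀ ω, evD w (tupDiv (x ω) oo)
      = (∏ j, val (x ω j) w1) * ((val oo w1) ^ g₀)⁻¹ := by
    intro ω
    have h3 : evD w1 (tupDiv (x ω) oo) = evD w (tupDiv (x ω) oo) := by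
      rw [hw1, evD_mul (unitOn_algebraMap hci _) (hwD ω), evD_algebraMap hci, degree_tupDiv,
        zpow_zero, one_mul]
    have h4 : UnitOn w1 (sumPts (x ω)) :=
      UnitOn.sum hw10 _ _ fun j _ => unitOn_single hw10 (hw1x ω j) 1
    rw [← h3, tupDiv, evD_sub h4 (unitOn_single hw10 hw1oo _), evD_single, zpow_natCast, sumPts,
      evD_sum hw10 _ _ fun j _ => unitOn_single hw10 (hw1x ω j) 1, div_eq_mul_inv]
    congr 1
    refine Finset.prod_congr rfl fun j _ => ?_
    rw [evD_single, zpow_one]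
  have hF2 : IsUnitSG A act (fun ω => evD w (tupDiv (x ω) oo)) := by
    simp only [h2eq]
    refine IsUnitSG.mul (IsUnitSG.prod _ fun j _ => ?_) (IsUnitSG.inv (IsUnitSG.pow ?_ _))
    · exact val_bad_isUnitSG hB hw1v hw1G (fun ω => x ω j) (fun σ ω => hx σ ω j)
        (fun ω => hxB ω j)
    · exact val_bad_isUnitSG hB hw1v hw1G (fun _ => oo) (fun σ _ => (hoo σ).symm) (fun _ => hooB)
  simp only [div_eq_mul_inv]
  exact (hF1.mul hF2.inv).1

end Fermat.Agent.S19.I
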