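import Fermat.Agent.S19.I.Units

/-!
# S19 / I-3 : the normalised equivariant family `ũ_ω = u_ω / u_ω(a_ω)`
-/

set_option autoImplicit false
set_option linter.unusedSectionVars false

noncomputable section

namespace Fermat.Agent.S19.I

open AlgebraicCurve Polynomial Fermat.Agent.S24.FF Fermat.Agent.S27 Fermat.Agent.GAL.KL
  Fermat.Agent.GAL.KLC Fermat.Agent.GAL.FF Fermat.Agent.S19.R Fermat.Agent.S19.W Fermat.Agent.S19.H

variable {F : Type} {Γ₀ : Type*} [Field F] [Algebra Qb F] [IsFF1 Qb F]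
  [LinearOrderedCommGroupWithZero Γ₀]
  {A : ValuationSubring Qb} {v : Valuation F Γ₀} {gal : GQ →* SemilinearAut Qb F} {s : F}

variable {Ω : Type} {act : GQ → Ω → Ω}

theorem tupDiv_smul {g₀ : ℕ} (g : SemilinearAut Qb F) (x : Fin g₀ → Place Qb F) (oo : Place Qb F) :
    g • tupDiv x oo = tupDiv (fun j => g • x j) (g • oo) := by
  unfold tupDiv sumPts
  rw [smul_sub, Finset.smul_sum, SemilinearAut.smul_single]
  simp only [SemilinearAut.smul_single]

theorem degree_tupDiv {g₀ : ℕ} (x : Fin g₀ → Place Qb F) (oo : Place Qb F) :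
    Divisor.degree (tupDiv x oo) = 0 := by
  unfold tupDiv
  rw [map_sub, degree_sumPts, degree_single_one, sub_self]

/-- the support of `tupDiv x oo` is contained in `{x_j} ∪ {oo}`. -/
theorem tupDiv_apply_ne_zero {g₀ : ℕ} {x : Fin g₀ → Place Qb F} {oo y : Place Qb F}
    (h : tupDiv x oo y ≠ 0) : y = oo ∨ ∃ j, y = x j := by
  classical
  by_contra hcon
  rw [not_or, not_exists] at hcon
  apply h
  unfold tupDiv
  rw [Finsupp.sub_apply, sumPts_apply_of_notMem x (fun i hi => hcon.2 i hi.symm),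
    Finsupp.single_eq_of_ne (fun h' => hcon.1 h'), sub_zero]

theorem exists_normalised (hB : Base A v gal s) {n : ℕ} {g₀ : ℕ} (x : Ω → Fin g₀ → Place Qb F)
    (hx : ∀ σ ω j, x (act σ ω) j = gal σ • x ω j) (oo : Place Qb F) (hoo : ∀ σ : GQ, gal σ • oo = oo)
    (a : Ω → Place Qb F) (ha : ∀ σ ω, a (act σ ω) = gal σ • a ω)
    (hxB : ∀ ω j, Bad v s (x ω j)) (hooB : Bad v s oo) (haG : ∀ ω, Good v s (a ω))
    (u : Ω → F) (hu : ∀ ω, u ω ≠ 0)
    (hdiv : ∀ ω (y : Place Qb F), y.ord (u ω) = n * tupDiv (x ω) oo y) :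
    ∃ ut : Ω → F, (∀ ω, ∃ c : Qb, c ≠ 0 ∧ ut ω = algebraMap Qb F c * u ω) ∧ (∀ ω, v (ut ω) = 1) ∧
      ∀ σ ω, gal σ • ut ω = ut (act σ ω) := by
  have hsupp : ∀ ω (y' : Place Qb F), y'.ord (u ω) ≠ 0 → Bad v s y' := by
    intro ω y' h
    rw [hdiv] at h
    rcases tupDiv_apply_ne_zero (right_ne_zero_of_mul h) with rfl | ⟨j, rfl⟩
    · exact hooB
    · exact hxB ω j
  have hat : ∀ ω, (a ω).ord (u ω) = 0 ∧ v (u ω) = vK v (val (a ω) (u ω)) := fun ω =>
    v_eq_at_good hB.hS hB.hs (hu ω) (hsupp ω) (haG ω)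
  have hval0 : ∀ ω, val (a ω) (u ω) ≠ 0 := fun ω =>
    (val_ne_zero_iff (a ω) (hu ω) (hat ω).1.ge).2 (hat ω).1
  set ut : Ω → F := fun ω => algebraMap Qb F (val (a ω) (u ω))⁻¹ * u ω with hut
  have hc0 : ∀ ω, algebraMap Qb F (val (a ω) (u ω))⁻¹ ≠ 0 := fun ω => by
    simpa using hval0 ω
  have hut0 : ∀ ω, ut ω ≠ 0 := fun ω => mul_ne_zero (hc0 ω) (hu ω)
  have hutord : ∀ ω (y : Place Qb F), y.ord (ut ω) = y.ord (u ω) := by
    intro ω y
    rw [hut, y.ord_mul (hc0 ω) (hu ω), ord_algebraMap, zero_add]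
  have hutval : ∀ ω, val (a ω) (ut ω) = 1 := by
    intro ω
    rw [hut, val_mul (a ω) (ord_algebraMap_nonneg _ _) (hat ω).1.ge, val_algebraMap,
      inv_mul_cancel₀ (hval0 ω)]
  refine ⟨ut, fun ω => ⟨_, inv_ne_zero (hval0 ω), rfl⟩, fun ω => ?_, fun σ ω => ?_⟩
  · have h1 : vK v (val (a ω) (u ω)) ≠ 0 := (Valuation.ne_zero_iff _).2 (hval0 ω)
    rw [hut, map_mul, (hat ω).2]
    change vK v (val (a ω) (u ω))⁻¹ * _ = 1
    rw [map_inv₀, inv_mul_cancel₀ h1]
  · have hg0 : gal σ • ut ω ≠ 0 := by simpa using hut0 ω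
    have hords : ∀ y : Place Qb F, y.ord (gal σ • ut ω) = y.ord (ut (act σ ω)) := by
      intro y
      have h1 := SemilinearAut.ord_smul (gal σ) ((gal σ)⁻¹ • y) (ut ω)
      rw [smul_inv_smul] at h1
      rw [h1, hutord, hutord, hdiv, hdiv]
      congr 1
      have h2 : tupDiv (x (act σ ω)) oo = gal σ • tupDiv (x ω) oo := by
        rw [tupDiv_smul, hoo σ]
        congr 1
        funext j
        exact hx σ ω j
      rw [h2, SemilinearAut.divisor_smul_apply]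
    obtain ⟨c, hc, hceq⟩ := exists_const_mul hg0 (hut0 (act σ ω)) hords
    have h3 : val (a (act σ ω)) (gal σ • ut ω) = 1 := by
      rw [ha σ ω, val_semi, hutval, map_one]
    have h4 : 0 ≤ (a (act σ ω)).ord (gal σ • ut ω) := by
      rw [hords, hutord, (hat _).1]
    have h5 := hutval (act σ ω)
    rw [hceq, val_mul _ (ord_algebraMap_nonneg _ _) h4, val_algebraMap, h3, mul_one] at h5
    rw [hceq, h5, map_one, one_mul]

end Fermat.Agent.S19.I
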