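import Fermat.Agent.S19.I.Coord
import Fermat.Agent.S19.I.Norm

/-!
# S19 / I-4 : the first factor: `ω ↦ ũ_ω(y)` for a good place `y`
-/

set_option autoImplicit false
set_option linter.unusedSectionVars false

noncomputable section

namespace Fermat.Agent.S19.I

open AlgebraicCurve Polynomial Fermat.Agent.S24.FF Fermat.Agent.S27 Fermat.Agent.GAL.KL
  Fermat.Agent.GAL.KLC Fermat.Agent.GAL.FF Fermat.Agent.S19.R Fermat.Agent.S19.W Fermat.Agent.S19.H

variable {F : Type} {Γ₀ : Type*} [Field F] [Algebra Qb F] [IsFF1 Qb F]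
  [LinearOrderedCommGroupWithZero Γ₀]
  {A : ValuationSubring Qb} {v : Valuation F Γ₀} {gal : GQ →* SemilinearAut Qb F} {s : F}

variable {Ω : Type} {act : GQ → Ω → Ω}

/-- `v (s - c) = 1` for `|c| ≤ 1` (Gauss). -/
theorem v_sub_const (hs : Chart Qb v s) {c : Qb} (hc : vK v c ≤ 1) :
    v (s - algebraMap Qb F c) = 1 := by
  have he : s - algebraMap Qb F c = aeval s (X - C c : Qb[X]) := by simp
  rw [he]
  refine le_antisymm ((hs.gauss _ 1).2 fun i => ?_) (not_lt.1 fun hlt => ?_)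
  · rw [coeff_sub, coeff_X, coeff_C]
    by_cases h1 : 1 = i
    · subst h1
      simp
    · by_cases h0 : i = 0
      · subst h0
        simp only [one_ne_zero, if_false, if_true, zero_sub, map_neg, Valuation.map_neg]
        exact hc
      · simp [h1, h0]
  · have := (hs.gauss.lt_iff _ 1 one_ne_zero).1 hlt 1
    simp at this

theorem isInt_sub_const (c : Qb) : IsInt Qb s (s - algebraMap Qb F c) := by
  have he : s - algebraMap Qb F c = aeval s (X - C c : Qb[X]) := by simp
  rw [he]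
  exact IsInt.aeval _

theorem val_good_isUnitSG (hB : Base A v gal s) {n : ℕ} {g₀ : ℕ} (x : Ω → Fin g₀ → Place Qb F)
    (oo : Place Qb F) (hoo : ∀ σ : GQ, gal σ • oo = oo)
    (hxB : ∀ ω j, Bad v s (x ω j)) (hooB : Bad v s oo)
    (ut : Ω → F) (hutv : ∀ ω, v (ut ω) = 1) (huteq : ∀ σ ω, gal σ • ut ω = ut (act σ ω))
    (hdiv : ∀ ω (y : Place Qb F), y.ord (ut ω) = n * tupDiv (x ω) oo y)
    (y : Place Qb F) (hy : Good v s y) :
    IsUnitSG A act (fun ω => val y (ut ω)) := by
  classical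
  have htr := Chart.transcendental hB.hs
  have hut0 : ∀ ω, ut ω ≠ 0 := by
    intro ω h
    have := hutv ω
    rw [h, map_zero] at this
    exact zero_ne_one this
  have hsupp : ∀ ω (y' : Place Qb F), y'.ord (ut ω) ≠ 0 → Bad v s y' := by
    intro ω y' h
    rw [hdiv] at h
    rcases tupDiv_apply_ne_zero (right_ne_zero_of_mul h) with rfl | ⟨j, rfl⟩
    · exact hooB
    · exact hxB ω j
  have hunit := fun ω => unit_at_good hB.hs (hutv ω) (hsupp ω) hy
  set c0 : Qb := val oo s with hc0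
  have hc0fix : ∀ σ : GQ, σ c0 = c0 := by
    intro σ
    have h1 := val_semi (gal σ) oo s
    rw [hoo σ, hB.hsr σ, hB.hS.base] at h1
    exact h1.symm
  set b0 : F := s - algebraMap Qb F c0 with hb0
  have hb0v : v b0 = 1 := v_sub_const hB.hs (Bad.le_one hooB)
  have hb0ne : b0 ≠ 0 := by
    intro h
    rw [h, map_zero] at hb0v
    exact zero_ne_one hb0v
  have hb0fix : ∀ σ : GQ, gal σ • b0 = b0 := by
    intro σ
    rw [hb0, smul_sub, hB.hsr σ, SemilinearAut.smul_algebraMap, hB.hS.base, hc0fix σ]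
  have hb0oo : 0 < oo.ord b0 := (val_spec' oo hooB.1).resolve_left hb0ne
  set e : ℕ := n * g₀ with he
  set z : Ω → F := fun ω => ut ω * b0 ^ e with hz
  have hzLL : ∀ ω, z ω ∈ LL Qb s e := by
    intro ω
    rw [LL_eq_L htr, mem_riemannRochSpace_iff]
    intro P
    right
    rw [Finsupp.smul_apply, poleDiv_apply, nsmul_eq_mul, hz,
      P.ord_mul (hut0 ω) (pow_ne_zero _ hb0ne), ord_pow, hdiv]
    have hsum : 0 ≤ sumPts (x ω) P := sumPts_nonneg _ _
    have hnn : (0 : ℤ) ≤ n := Int.natCast_nonneg n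
    have hee : (0 : ℤ) ≤ e := Int.natCast_nonneg e
    have hecast : (e : ℤ) = n * g₀ := by rw [he]; push_cast; ring
    unfold tupDiv
    rw [Finsupp.sub_apply]
    by_cases hP : P = oo
    · subst hP
      rw [Finsupp.single_eq_same]
      have h1 : (e : ℤ) * 1 ≤ e * P.ord b0 := mul_le_mul_of_nonneg_left (by omega) hee
      have h2 : (0 : ℤ) ≤ e * max 0 (-P.ord s) := mul_nonneg hee (le_max_left _ _)
      have h3 : (0 : ℤ) ≤ n * sumPts (x ω) P := mul_nonneg hnn hsum
      rw [mul_sub]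
      linarith
    · rw [Finsupp.single_eq_of_ne (fun h => hP h), sub_zero]
      have h3 : (0 : ℤ) ≤ n * sumPts (x ω) P := mul_nonneg hnn hsum
      rcases le_or_gt 0 (P.ord s) with h | h
      · have h4 : 0 ≤ P.ord b0 := ord_sub_nonneg P h (ord_algebraMap_nonneg P _)
        have h2 : (0 : ℤ) ≤ e * max 0 (-P.ord s) := mul_nonneg hee (le_max_left _ _)
        have h5 : (0 : ℤ) ≤ e * P.ord b0 := mul_nonneg hee h4
        linarith
      · rw [hb0, ord_sub_algebraMap_of_pole P h, max_eq_right (by omega)]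
        linarith
  have hzv : ∀ ω, v (z ω) ≤ 1 := by
    intro ω
    rw [hz, map_mul, map_pow, hutv, hb0v, one_pow, one_mul]
  have hzeq : ∀ σ ω, gal σ • z ω = z (act σ ω) := by
    intro σ ω
    rw [hz]
    simp only
    rw [smul_mul', smul_pow', huteq, hb0fix]
  have hSG := val_family_mem_SG hB e z hzLL hzv hzeq y hy.1 hy.2.1.le
  have hb0y : 0 ≤ y.ord b0 := ord_sub_nonneg y hy.1 (ord_algebraMap_nonneg y _)
  have hvalb0 : val y b0 = val y s - c0 := by
    rw [hb0, val_sub y hy.1 (ord_algebraMap_nonneg y _), val_algebraMap]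
  have hκ : vK v (val y b0 ^ e) = 1 := by
    rw [map_pow, hvalb0, hc0, good_sub_bad hy hooB, one_pow]
  obtain ⟨hκ0, -, hκinv⟩ := (vK_eq_one_iff hB.hS _).1 hκ
  have hfun : (fun ω => val y (ut ω)) = (val y b0 ^ e)⁻¹ • fun ω => val y (z ω) := by
    funext ω
    rw [Pi.smul_apply, smul_eq_mul, hz]
    simp only
    rw [val_mul y (hunit ω).1.ge (ord_pow_nonneg y hb0y e), val_pow y hb0y, mul_comm,
      mul_assoc, mul_inv_cancel₀ hκ0, mul_one]
  refine ⟨?_, fun ω => ?_⟩
  · rw [hfun]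
    exact smul_mem_SG hκinv hSG
  · obtain ⟨h0, -, h1⟩ := (vK_eq_one_iff hB.hS _).1 (hunit ω).2
    exact ⟨h0, h1⟩

end Fermat.Agent.S19.I
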