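import Fermat.Agent.S19.I.Defs
import Fermat.Agent.S19.R.Export
import Fermat.Agent.S19.W.EvD
import Fermat.Agent.S19.H.SG

/-!
# S19 / I-1 : unit values (consequences of (C2) = `R.c2_of_chart`), and `IsUnitSG`
-/

set_option autoImplicit false
set_option linter.unusedSectionVars false

noncomputable section

namespace Fermat.Agent.S19.I

open AlgebraicCurve Polynomial Fermat.Agent.S24.FF Fermat.Agent.S27 Fermat.Agent.GAL.KL
  Fermat.Agent.GAL.KLC Fermat.Agent.GAL.FF Fermat.Agent.S19.R Fermat.Agent.S19.W Fermat.Agent.S19.H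

variable {F : Type} {Γ₀ : Type*} [Field F] [Algebra Qb F] [IsFF1 Qb F]
  [LinearOrderedCommGroupWithZero Γ₀]
  {A : ValuationSubring Qb} {v : Valuation F Γ₀} {gal : GQ →* SemilinearAut Qb F} {s : F}

theorem vK_le_one_iff (hS : Setting A v gal) (a : Qb) : vK v a ≤ 1 ↔ a ∈ A := hS.vA a

/-- `|a| = 1` iff `a` is a unit of `A`. -/
theorem vK_eq_one_iff (hS : Setting A v gal) (a : Qb) : vK v a = 1 ↔ a ≠ 0 ∧ a ∈ A ∧ a⁻¹ ∈ A := by
  constructor
  · intro h
    have h0 : a ≠ 0 := by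
      rintro rfl
      rw [map_zero] at h
      exact zero_ne_one h
    refine ⟨h0, (vK_le_one_iff hS a).1 h.le, (vK_le_one_iff hS _).1 ?_⟩
    rw [map_inv₀, h, inv_one]
  · rintro ⟨h0, h1, h2⟩
    have h1' := (vK_le_one_iff hS a).2 h1
    have h2' := (vK_le_one_iff hS _).2 h2
    rw [map_inv₀] at h2'
    have h3 : vK v a ≠ 0 := (Valuation.ne_zero_iff _).2 h0
    refine le_antisymm h1' ?_
    rwa [inv_le_one₀ (zero_lt_iff.2 h3)] at h2'

theorem Bad.le_one {y : Place Qb F} (h : Bad v s y) : vK v (val y s) ≤ 1 := by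
  rcases h.2 with h1 | h1
  · exact h1.le
  · have : val y s = (val y s - 1) + 1 := by ring
    rw [this]
    refine le_trans (Valuation.map_add _ _ _) (max_le h1.le ?_)
    rw [map_one]

/-- `|s(y) - s(y')| = 1` for `y` good and `y'` bad. -/
theorem good_sub_bad {y y' : Place Qb F} (h : Good v s y) (h' : Bad v s y') :
    vK v (val y s - val y' s) = 1 := by
  rcases h'.2 with h1 | h1
  · rw [Valuation.map_sub_eq_of_lt_left _ (by rw [h.2.1]; exact h1), h.2.1]
  · have : val y s - val y' s = (val y s - 1) - (val y' s - 1) := by ring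
    rw [this, Valuation.map_sub_eq_of_lt_left _ (by rw [h.2.2]; exact h1), h.2.2]

theorem unit_at_good (hs : Chart Qb v s) {u : F} (hu : v u = 1)
    (hB : ∀ y' : Place Qb F, y'.ord u ≠ 0 → Bad v s y') {y : Place Qb F} (hy : Good v s y) :
    y.ord u = 0 ∧ vK v (val y u) = 1 :=
  c2_of_chart hs hu hy.1 hy.2.1.le fun y' h1 _ _ => good_sub_bad hy (hB y' h1)

theorem unit_at_bad (hs : Chart Qb v s) {u : F} (hu : v u = 1)
    (hG : ∀ y' : Place Qb F, y'.ord u ≠ 0 → Good v s y') {y : Place Qb F} (hy : Bad v s y) :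
    y.ord u = 0 ∧ vK v (val y u) = 1 :=
  c2_of_chart hs hu hy.1 (Bad.le_one hy) fun y' h1 _ _ => by
    rw [Valuation.map_sub_swap]
    exact good_sub_bad (hG y' h1) hy

/-- `v u = |u(y)|` (scale `u` by a constant, `Setting.vval`). -/
theorem v_eq_at_good (hS : Setting A v gal) (hs : Chart Qb v s) {u : F} (hu : u ≠ 0)
    (hB : ∀ y' : Place Qb F, y'.ord u ≠ 0 → Bad v s y') {y : Place Qb F} (hy : Good v s y) :
    y.ord u = 0 ∧ v u = vK v (val y u) := by
  obtain ⟨c, hc⟩ := hS.vval u hu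
  have hc0 : c ≠ 0 := by
    rintro rfl
    rw [map_zero, map_zero] at hc
    exact hu ((Valuation.zero_iff v).1 hc)
  have hcF : algebraMap Qb F c⁻¹ ≠ 0 := by simpa using hc0
  have hvc : v (algebraMap Qb F c) ≠ 0 := (Valuation.ne_zero_iff _).2 (by simpa using hc0)
  have hord : ∀ y' : Place Qb F, y'.ord (algebraMap Qb F c⁻¹ * u) = y'.ord u := by
    intro y'
    rw [y'.ord_mul hcF hu, ord_algebraMap, zero_add]
  have h1 : v (algebraMap Qb F c⁻¹ * u) = 1 := by
    rw [map_mul, hc, map_inv₀, map_inv₀, inv_mul_cancel₀ hvc]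
  obtain ⟨h2, h3⟩ := unit_at_good hs h1 (fun y' h => hB y' (by rwa [hord] at h)) hy
  rw [hord] at h2
  refine ⟨h2, ?_⟩
  rw [val_mul y (ord_algebraMap_nonneg y _) h2.ge, val_algebraMap, map_mul, map_inv₀] at h3
  rw [hc]
  have hvc' : vK v c ≠ 0 := hvc
  have : vK v (val y u) = vK v c := by
    have h4 := congrArg (fun t => vK v c * t) h3
    simp only [mul_one] at h4
    rwa [← mul_assoc, mul_inv_cancel₀ hvc', one_mul] at h4
  rw [this]
  rfl

/-! ### `IsUnitSG` -/

variable {Ω : Type} {act : GQ → Ω → Ω}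

theorem IsUnitSG.mul {f g : Ω → Qb} (hf : IsUnitSG A act f) (hg : IsUnitSG A act g) :
    IsUnitSG A act (fun ω => f ω * g ω) :=
  ⟨mul_mem_SG hf.1 hg.1, fun ω => ⟨mul_ne_zero (hf.2 ω).1 (hg.2 ω).1, by
    rw [mul_inv]; exact A.mul_mem _ _ (hf.2 ω).2 (hg.2 ω).2⟩⟩

theorem IsUnitSG.inv [Finite Ω] {f : Ω → Qb} (hf : IsUnitSG A act f) :
    IsUnitSG A act (fun ω => (f ω)⁻¹) :=
  ⟨inv_mem_SG hf.1 (fun ω => (hf.2 ω).1) (fun ω => (hf.2 ω).2), fun ω =>
    ⟨inv_ne_zero (hf.2 ω).1, by rw [inv_inv]; exact apply_mem_of_mem_SG hf.1 ω⟩⟩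

theorem IsUnitSG.const {a : Qb} (h0 : a ≠ 0) (ha : a ∈ A) (ha' : a⁻¹ ∈ A) :
    IsUnitSG A act (fun _ : Ω => a) :=
  ⟨const_mem_SG ha, fun _ => ⟨h0, ha'⟩⟩

theorem IsUnitSG.pow {f : Ω → Qb} (hf : IsUnitSG A act f) (m : ℕ) :
    IsUnitSG A act (fun ω => f ω ^ m) := by
  induction m with
  | zero =>
    simp only [pow_zero]
    exact IsUnitSG.const one_ne_zero A.one_mem (by rw [inv_one]; exact A.one_mem)
  | succ m ih =>
    simp only [pow_succ]
    exact ih.mul hf

theorem IsUnitSG.zpow [Finite Ω] {f : Ω → Qb} (hf : IsUnitSG A act f) (m : ℤ) :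
    IsUnitSG A act (fun ω => f ω ^ m) := by
  obtain ⟨k, rfl | rfl⟩ := m.eq_nat_or_neg
  · simp only [zpow_natCast]
    exact hf.pow k
  · simp only [zpow_neg, zpow_natCast]
    exact (hf.pow k).inv

theorem IsUnitSG.prod {ι : Type*} (t : Finset ι) {f : ι → Ω → Qb}
    (hf : ∀ i ∈ t, IsUnitSG A act (f i)) : IsUnitSG A act (fun ω => ∏ i ∈ t, f i ω) := by
  classical
  induction t using Finset.induction_on with
  | empty =>
    simp only [Finset.prod_empty]
    exact IsUnitSG.const one_ne_zero A.one_mem (by rw [inv_one]; exact A.one_mem)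
  | insert i t hi ih =>
    simp only [Finset.prod_insert hi]
    exact (hf i (Finset.mem_insert_self i t)).mul (ih fun j hj => hf j (Finset.mem_insert_of_mem hj))

end Fermat.Agent.S19.I
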